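/-
GATE-B / B2-COND, final assembly for the flat condition (helper14): with helper57's flat atom
`GB/Def/CondFlatAtom.isDeformationCondition_isFlatAt` plugged into `GB/Def/Cond/Atom`, the
S56-shaped flat condition

  `𝒟FL p T Smin := fun ρ => flatCondition 𝒪 p T ρ ∧ ∀ q ∈ Smin, q.Prime → q ≠ p → unipotent at q`

is a deformation condition (all five fields) for EVERY `T`, `Smin`, over a local `𝒪` with finite
residue field, `p` prime.  Also the frozen `flatCondition 𝒪 p T` and `minimalFlatCondition 𝒪 p S`.
-/
import Fermat.Agent.GB.Def.Cond.Atom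
import Fermat.Agent.GB.Def.CondFlatAtom

set_option autoImplicit false
set_option linter.unusedSectionVars false

open IsLocalRing GaloisRep

namespace Fermat.Agent.GB.Def.Cond

variable (𝒪 : Type) [CommRing 𝒪] [IsLocalRing 𝒪] [Finite (ResidueField 𝒪)]
  (p : ℕ) [Fact p.Prime]

/-- the frozen `flatCondition 𝒪 p T` is a deformation condition -/
theorem isDeformationCondition_flatCondition_closed (T : Finset ℕ) :
    IsDeformationCondition 𝒪 (GaloisRep.flatCondition 𝒪 p T) :=
  Atom.isDeformationCondition_flatCondition p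
    (Fermat.Agent.GB.Def.CondFlat.isDeformationCondition_isFlatAt p 𝒪) T

/-- **𝒟FL** (S56 shape, any `T`, `Smin`) is a deformation condition. -/
theorem isDeformationCondition_FL (T Smin : Finset ℕ) :
    IsDeformationCondition 𝒪 (fun _A _ _ _ ρ => GaloisRep.flatCondition 𝒪 p T ρ ∧
      ∀ q ∈ Smin, q.Prime → q ≠ p → ρ.IsUnipotentOnInertiaAt q) :=
  Atom.isDeformationCondition_FL_of_flat p
    (Fermat.Agent.GB.Def.CondFlat.isDeformationCondition_isFlatAt p 𝒪) T Smin

/-- the frozen `minimalFlatCondition 𝒪 p S` is a deformation condition -/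
theorem isDeformationCondition_minimalFlatCondition_closed (S : Finset ℕ) :
    IsDeformationCondition 𝒪 (GaloisRep.minimalFlatCondition 𝒪 p S) :=
  isDeformationCondition_FL 𝒪 p S S

end Fermat.Agent.GB.Def.Cond
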