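/-
GATE-B / B2-COND sub-leaf TANFIN (helper45): the finiteness of the tangent space
`GaloisRep.TangentFinite 𝒪 ρbar 𝒟` (the hypothesis of S53) from a Selmer bound
`GP.Tan.SelmerBound 𝒪 ρbar b 𝒟 r` (any `r`: only finiteness is used).

The frozen `TangentFinite` elaborates `𝒟` at `k[ε]` with a `RingHom.toAlgebra` instance, the
GATE-P development with Mathlib's `TrivSqZeroExt` instance; the two are propositionally but not
definitionally equal, so the statement carries the (trivial for every concrete condition, which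
ignores the instance) hypothesis `h𝒟inst`.
-/
import Fermat.Agent.GP.Tan.LiftClass
import Fermat.Agent.GP.Tan.TanTop
import Fermat.Prelude.Def_GaloisRep_DeformationCondition

set_option autoImplicit false
set_option maxHeartbeats 400000
set_option linter.unusedSectionVars false
set_option linter.style.haveILetI false

noncomputable section

namespace Fermat.Agent.GB.Def.Cond.TanFin

open IsLocalRing Matrix Fermat.Agent.S53_helper35 Fermat.Agent.GP.Tan.Cocycle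
  Fermat.Agent.GP.Top Fermat.Agent.GP.Tan.LiftClass Fermat.Agent.GP.Tan.TanTop

/-- a quotient is finite as soon as some invariant with finitely many values separates the
classes (the invariant need not be constant on the classes) -/
theorem finite_quotient_of_separating {α T : Type*} [Finite T] (s : Setoid α) (g : α → T)
    (hg : ∀ a a' : α, g a = g a' → s.r a a') : Finite (Quotient s) := by
  refine Finite.of_injective (fun x : Quotient s => g x.out) ?_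
  intro x y hxy
  have h := hg _ _ hxy
  rw [← Quotient.out_eq x, ← Quotient.out_eq y]
  exact Quotient.sound h

variable (𝒪 : Type) [CommRing 𝒪] [IsDomain 𝒪] [IsDiscreteValuationRing 𝒪]
  [IsAdicComplete (maximalIdeal 𝒪) 𝒪]
  (ρbar : ResidualGaloisRep (ResidueField 𝒪))
  (b : Module.Basis (Fin 2) (ResidueField 𝒪) ρbar.V)

/-- the two ring homomorphisms `k → k[ε]/(ε)` used by the frozen `TangentFinite` and by `IsLift`
agree -/
theorem residueMap_eq :
    (ResidueField.map (algebraMap 𝒪 (DualNumber (ResidueField 𝒪))) :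
      ResidueField 𝒪 →+* ResidueField (DualNumber (ResidueField 𝒪))) =
    (IsLocalRing.residue (DualNumber (ResidueField 𝒪))).comp
      (algebraMap (ResidueField 𝒪) (DualNumber (ResidueField 𝒪))) := by
  ext x
  obtain ⟨c, rfl⟩ := IsLocalRing.residue_surjective x
  rfl

/-- two lifts of type `𝒟` with the same value of the separating invariant are equivalent -/
theorem isEquiv_of_selmer_eq
    {𝒟 : ∀ ⦃A : Type⦄ [CommRing A] [IsLocalRing A] [Algebra 𝒪 A], GaloisRepAdic A → Prop}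
    {T : Type} (q : (GQ → Matrix (Fin 2) (Fin 2) (ResidueField 𝒪)) → T)
    (hq : ∀ c c' : GQ → Matrix (Fin 2) (Fin 2) (ResidueField 𝒪),
      ((∃ X, ∀ σ, c σ = X - toMatRes ρbar b σ * X * toMatRes ρbar b σ⁻¹) ∨
        ∃ (t : GQ →* Matrix (Fin 2) (Fin 2) (DualNumber (ResidueField 𝒪))) (ht : MatCont t),
          rfst t = toMatRes ρbar b ∧ (∃ ρ, 𝒟 ρ ∧ ρ.IsEquiv (ofMat t ht)) ∧
            ∀ σ, c σ = tanCocycle t σ) →
      ((∃ X, ∀ σ, c' σ = X - toMatRes ρbar b σ * X * toMatRes ρbar b σ⁻¹) ∨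
        ∃ (t : GQ →* Matrix (Fin 2) (Fin 2) (DualNumber (ResidueField 𝒪))) (ht : MatCont t),
          rfst t = toMatRes ρbar b ∧ (∃ ρ, 𝒟 ρ ∧ ρ.IsEquiv (ofMat t ht)) ∧
            ∀ σ, c' σ = tanCocycle t σ) →
      q c = q c' →
      ∃ X, ∀ σ, c' σ = c σ + X - toMatRes ρbar b σ * X * toMatRes ρbar b σ⁻¹)
    (ρ₁ ρ₂ : GaloisRepAdic (DualNumber (ResidueField 𝒪)))
    (h₁ : IsLift 𝒪 ρbar ρ₁) (h₂ : IsLift 𝒪 ρbar ρ₂) (hd₁ : 𝒟 ρ₁) (hd₂ : 𝒟 ρ₂)
    (heq : q (liftCocycle 𝒪 ρbar b ρ₁) = q (liftCocycle 𝒪 ρbar b ρ₂)) : ρ₁.IsEquiv ρ₂ := by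
  have hadm : ∀ (ρ : GaloisRepAdic (DualNumber (ResidueField 𝒪))) (h : IsLift 𝒪 ρbar ρ),
      𝒟 ρ →
      ((∃ X, ∀ σ, liftCocycle 𝒪 ρbar b ρ σ =
          X - toMatRes ρbar b σ * X * toMatRes ρbar b σ⁻¹) ∨
        ∃ (t : GQ →* Matrix (Fin 2) (Fin 2) (DualNumber (ResidueField 𝒪))) (ht : MatCont t),
          rfst t = toMatRes ρbar b ∧ (∃ ρ', 𝒟 ρ' ∧ ρ'.IsEquiv (ofMat t ht)) ∧
            ∀ σ, liftCocycle 𝒪 ρbar b ρ σ = tanCocycle t σ) := by
    intro ρ h hd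
    refine Or.inr ⟨liftMat 𝒪 ρbar b ρ h, matCont_liftMat b ρ h, rfst_liftMat b ρ h,
      ⟨ρ, hd, isEquiv_ofMat_liftMat b ρ h⟩, fun σ => ?_⟩
    rw [liftCocycle_eq b ρ h]
  obtain ⟨X, hX⟩ := hq _ _ (hadm ρ₁ h₁ hd₁) (hadm ρ₂ h₂ hd₂) heq
  apply isEquiv_of_sub_mem_B1 b ρ₁ ρ₂ h₁ h₂
  rw [mem_B1_iff]
  refine ⟨X, fun σ => ?_⟩
  rw [Pi.sub_apply, hX σ]
  abel

/-- **TANFIN**: a Selmer bound makes the tangent space finite. -/
theorem tangentFinite_of_selmerBound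
    (𝒟 : ∀ ⦃A : Type⦄ [CommRing A] [IsLocalRing A] [Algebra 𝒪 A], GaloisRepAdic A → Prop)
    (h𝒟inst : ∀ (i₁ i₂ : Algebra 𝒪 (DualNumber (ResidueField 𝒪)))
      (ρ : GaloisRepAdic (DualNumber (ResidueField 𝒪))),
      @𝒟 (DualNumber (ResidueField 𝒪)) _ _ i₁ ρ → @𝒟 (DualNumber (ResidueField 𝒪)) _ _ i₂ ρ)
    {r : ℕ} (hSel : SelmerBound 𝒪 ρbar b 𝒟 r) : GaloisRep.TangentFinite 𝒪 ρbar 𝒟 := by
  obtain ⟨T, hT, q, -, hq⟩ := hSel
  haveI := hT
  unfold GaloisRep.TangentFinite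
  refine finite_quotient_of_separating _ (fun ρ => q (liftCocycle 𝒪 ρbar b ρ.1)) ?_
  rintro ⟨ρ₁, hd₁, hr₁⟩ ⟨ρ₂, hd₂, hr₂⟩ heq
  have hl : ∀ ρ : GaloisRepAdic (DualNumber (ResidueField 𝒪)),
      ρ.residual.IsEquiv (@ResidualGaloisRep.baseChange (ResidueField 𝒪) _
        (ResidueField (DualNumber (ResidueField 𝒪))) _
        (((IsLocalRing.residue (DualNumber (ResidueField 𝒪))).comp
          (algebraMap (ResidueField 𝒪) (DualNumber (ResidueField 𝒪)))).toAlgebra) ρbar) →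
      IsLift 𝒪 ρbar ρ := by
    intro ρ h
    unfold IsLift ResidualGaloisRep.baseChangeAlong
    rw [residueMap_eq]
    exact h
  exact isEquiv_of_selmer_eq 𝒪 ρbar b q hq ρ₁ ρ₂ (hl ρ₁ hr₁) (hl ρ₂ hr₂)
    (h𝒟inst _ _ ρ₁ hd₁) (h𝒟inst _ _ ρ₂ hd₂) heq

end Fermat.Agent.GB.Def.Cond.TanFin
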