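/-
GATE-B / B2-COND, combinators (helper14): `GaloisRep.IsDeformationCondition` is closed under
conjunction, arbitrary `∀`, implication from a fixed proposition, and pointwise `↔`; the trivial
condition is a deformation condition.

With these the frozen shapes `flatCondition 𝒪 p S ρ ∧ ∀ q ∈ Smin, q.Prime → q ≠ p → …` reduce to
their atomic conjuncts (`DetIsCyclotomic`, `IsFlatAt`, `IsUnramifiedAt q`,
`IsUnipotentOnInertiaAt q`, …).
-/
import Mathlib
import Fermat.Prelude.Def_GaloisRep_DeformationCondition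

set_option autoImplicit false
set_option linter.unusedSectionVars false

namespace Fermat.Agent.GB.Def.Cond

open GaloisRep IsLocalRing

variable {𝒪 : Type} [CommRing 𝒪] [IsLocalRing 𝒪]

/-- the type of deformation conditions (frozen binder shape) -/
abbrev DefCond (𝒪 : Type) [CommRing 𝒪] [IsLocalRing 𝒪] : Type 1 :=
  ∀ ⦃A : Type⦄ [CommRing A] [IsLocalRing A] [Algebra 𝒪 A], GaloisRepAdic A → Prop

/-- the trivial condition -/
theorem isDeformationCondition_true :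
    IsDeformationCondition 𝒪 (fun _A _ _ _ _ρ => True) where
  of_isEquiv := by intros; trivial
  baseChangeAlong := by intros; trivial
  of_baseChangeAlong_injective := by intros; trivial
  of_fibreProduct := by intros; trivial
  iff_forall_surjective := by
    intros
    exact ⟨fun _ _ _ _ _ _ _ _ _ => trivial, fun _ => trivial⟩

/-- conjunction -/
theorem IsDeformationCondition.and {𝒟₁ 𝒟₂ : DefCond 𝒪}
    (h₁ : IsDeformationCondition 𝒪 𝒟₁) (h₂ : IsDeformationCondition 𝒪 𝒟₂) :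
    IsDeformationCondition 𝒪 (fun _A _ _ _ ρ => 𝒟₁ ρ ∧ 𝒟₂ ρ) where
  of_isEquiv := fun _ _ _ _ hA _ _ he h =>
    ⟨h₁.of_isEquiv hA he h.1, h₂.of_isEquiv hA he h.2⟩
  baseChangeAlong := fun _ _ _ _ _ _ _ _ hA hB φ hφ _ h =>
    ⟨h₁.baseChangeAlong hA hB φ hφ h.1, h₂.baseChangeAlong hA hB φ hφ h.2⟩
  of_baseChangeAlong_injective := fun _ _ _ _ _ _ _ _ hA hB φ hφ hinj _ h =>
    ⟨h₁.of_baseChangeAlong_injective hA hB φ hφ hinj h.1,
      h₂.of_baseChangeAlong_injective hA hB φ hφ hinj h.2⟩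
  of_fibreProduct := fun _ _ _ _ _ _ _ _ _ _ _ _ _ _ _ _ hA hB hC hP f g pA pB hpA hpB hfg hinj
      hsurj _ ha hb =>
    ⟨h₁.of_fibreProduct hA hB hC hP f g pA pB hpA hpB hfg hinj hsurj ha.1 hb.1,
      h₂.of_fibreProduct hA hB hC hP f g pA pB hpA hpB hfg hinj hsurj ha.2 hb.2⟩
  iff_forall_surjective := fun _ _ _ _ _ _ hloc hres ρ =>
    ⟨fun h _ _ _ _ hB q hq hqs =>
      ⟨(h₁.iff_forall_surjective hloc hres ρ).1 h.1 hB q hq hqs,
        (h₂.iff_forall_surjective hloc hres ρ).1 h.2 hB q hq hqs⟩,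
     fun h =>
      ⟨(h₁.iff_forall_surjective hloc hres ρ).2 fun _ _ _ _ hB q hq hqs => (h hB q hq hqs).1,
        (h₂.iff_forall_surjective hloc hres ρ).2 fun _ _ _ _ hB q hq hqs => (h hB q hq hqs).2⟩⟩

/-- arbitrary `∀` -/
theorem IsDeformationCondition.forall {ι : Sort*} {𝒟 : ι → DefCond 𝒪}
    (h : ∀ i, IsDeformationCondition 𝒪 (𝒟 i)) :
    IsDeformationCondition 𝒪 (fun _A _ _ _ ρ => ∀ i, 𝒟 i ρ) where
  of_isEquiv := fun _ _ _ _ hA _ _ he hρ i => (h i).of_isEquiv hA he (hρ i)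
  baseChangeAlong := fun _ _ _ _ _ _ _ _ hA hB φ hφ _ hρ i =>
    (h i).baseChangeAlong hA hB φ hφ (hρ i)
  of_baseChangeAlong_injective := fun _ _ _ _ _ _ _ _ hA hB φ hφ hinj _ hρ i =>
    (h i).of_baseChangeAlong_injective hA hB φ hφ hinj (hρ i)
  of_fibreProduct := fun _ _ _ _ _ _ _ _ _ _ _ _ _ _ _ _ hA hB hC hP f g pA pB hpA hpB hfg hinj
      hsurj _ ha hb i =>
    (h i).of_fibreProduct hA hB hC hP f g pA pB hpA hpB hfg hinj hsurj (ha i) (hb i)
  iff_forall_surjective := fun _ _ _ _ _ _ hloc hres ρ =>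
    ⟨fun hρ _ _ _ _ hB q hq hqs i =>
      ((h i).iff_forall_surjective hloc hres ρ).1 (hρ i) hB q hq hqs,
     fun hρ i =>
      ((h i).iff_forall_surjective hloc hres ρ).2 fun _ _ _ _ hB q hq hqs => hρ hB q hq hqs i⟩

/-- pointwise equivalent conditions -/
theorem IsDeformationCondition.congr {𝒟 𝒟' : DefCond 𝒪}
    (h : IsDeformationCondition 𝒪 𝒟)
    (hiff : ∀ ⦃A : Type⦄ [CommRing A] [IsLocalRing A] [Algebra 𝒪 A] (ρ : GaloisRepAdic A),
      𝒟 ρ ↔ 𝒟' ρ) :
    IsDeformationCondition 𝒪 𝒟' where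
  of_isEquiv := fun _ _ _ _ hA _ _ he hρ => (hiff _).1 (h.of_isEquiv hA he ((hiff _).2 hρ))
  baseChangeAlong := fun _ _ _ _ _ _ _ _ hA hB φ hφ _ hρ =>
    (hiff _).1 (h.baseChangeAlong hA hB φ hφ ((hiff _).2 hρ))
  of_baseChangeAlong_injective := fun _ _ _ _ _ _ _ _ hA hB φ hφ hinj _ hρ =>
    (hiff _).1 (h.of_baseChangeAlong_injective hA hB φ hφ hinj ((hiff _).2 hρ))
  of_fibreProduct := fun _ _ _ _ _ _ _ _ _ _ _ _ _ _ _ _ hA hB hC hP f g pA pB hpA hpB hfg hinj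
      hsurj _ ha hb =>
    (hiff _).1 (h.of_fibreProduct hA hB hC hP f g pA pB hpA hpB hfg hinj hsurj
      ((hiff _).2 ha) ((hiff _).2 hb))
  iff_forall_surjective := fun _ _ _ _ _ _ hloc hres ρ =>
    ⟨fun hρ _ _ _ _ hB q hq hqs =>
      (hiff _).1 ((h.iff_forall_surjective hloc hres ρ).1 ((hiff _).2 hρ) hB q hq hqs),
     fun hρ => (hiff _).1 ((h.iff_forall_surjective hloc hres ρ).2
      fun _ _ _ _ hB q hq hqs => (hiff _).2 (hρ hB q hq hqs))⟩

/-- implication from a fixed proposition -/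
theorem IsDeformationCondition.imp (P : Prop) {𝒟 : DefCond 𝒪}
    (h : IsDeformationCondition 𝒪 𝒟) :
    IsDeformationCondition 𝒪 (fun _A _ _ _ ρ => P → 𝒟 ρ) :=
  IsDeformationCondition.forall (ι := P) (𝒟 := fun _ => 𝒟) fun _ => h

/-- bounded `∀` over a `Finset`, in the frozen spelling `∀ q ∈ S, …` -/
theorem IsDeformationCondition.forall_mem {α : Type*} (S : Finset α) {𝒟 : α → DefCond 𝒪}
    (h : ∀ q ∈ S, IsDeformationCondition 𝒪 (𝒟 q)) :
    IsDeformationCondition 𝒪 (fun _A _ _ _ ρ => ∀ q ∈ S, 𝒟 q ρ) :=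
  IsDeformationCondition.forall (ι := α) (𝒟 := fun q _A _ _ _ ρ => q ∈ S → 𝒟 q ρ) fun q => by
    by_cases hq : q ∈ S
    · exact IsDeformationCondition.imp (q ∈ S) (h q hq)
    · exact IsDeformationCondition.congr isDeformationCondition_true
        fun _ _ _ _ _ => ⟨fun _ h' => absurd h' hq, fun _ => trivial⟩

end Fermat.Agent.GB.Def.Cond
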