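/-
GATE-B / B2-COND, atoms (helper14): the atomic local conditions

* `ρ.IsUnramifiedAt q`, `ρ.IsUnipotentOnInertiaAt q` (any `q`),
* `ρ.DetIsCyclotomic p` (`p` prime)

are deformation conditions (`GaloisRep.IsDeformationCondition 𝒪`, all five fields), and the
S56-shaped conditions `flatCondition 𝒪 p T ρ ∧ ∀ q ∈ Smin, …` / `strictOrdinaryCondition 𝒪 p T ρ ∧ …`
are deformation conditions as soon as `IsFlatAt p` / `IsStrictOrdinaryAt p` is one.

Method: `IsUnramifiedAt` / `IsUnipotentOnInertiaAt` are cut out by the vanishing of a family of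
elements `X ρ ⊆ A` (matrix entries of `ρ σ - 1`, coefficients of `charpoly (ρ σ) - (X - 1) ^ 2`)
compatibly with base change (`isDeformationCondition_of_vanishing`); for the determinant, over an
Artinian ring `(p ^ n) = 0` for `n ≫ 0` and the condition becomes the equality `det ρ σ = a`.
-/
import Mathlib
import Fermat.Prelude.Def_GaloisRep_DeformationCondition
import Fermat.Prelude.Def_GaloisRep_LocalConditions
import Fermat.Prelude.Def_GaloisRep_Flat
import Fermat.Prelude.Def_GaloisRep_StrictOrdinary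
import Fermat.Agent.GP.Tan.BaseChangeCond
import Fermat.Agent.GB.Def.Cond.Comb

set_option autoImplicit false
set_option linter.unusedSectionVars false
set_option linter.style.haveILetI false

open scoped TensorProduct
open IsLocalRing GaloisRep

namespace Fermat.Agent.GB.Def.Cond.Atom

local notation "Qb" => AlgebraicClosure ℚ
local notation "GQ" => (AlgebraicClosure ℚ ≃ₐ[ℚ] AlgebraicClosure ℚ)

/-! ### Artinian quotients of a complete local algebra -/

section Quot

variable {𝒪 : Type} [CommRing 𝒪] [IsLocalRing 𝒪]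
variable {A : Type} [CommRing A] [IsLocalRing A] [Algebra 𝒪 A]

/-- `A ⧸ 𝔪 ^ k` is local for `k ≠ 0`. -/
theorem isLocalRing_quot_pow {k : ℕ} (hk : k ≠ 0) : IsLocalRing (A ⧸ maximalIdeal A ^ k) := by
  haveI : Nontrivial (A ⧸ maximalIdeal A ^ k) := by
    rw [Ideal.Quotient.nontrivial_iff]
    intro h
    have h1 : maximalIdeal A ^ k ≤ maximalIdeal A := Ideal.pow_le_self hk
    rw [h] at h1
    exact (maximalIdeal.isMaximal A).ne_top (top_le_iff.mp h1)
  exact IsLocalRing.of_surjective' (Ideal.Quotient.mk _) Ideal.Quotient.mk_surjective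

/-- open proper quotients of a Noetherian local `𝒪`-algebra with residue field `k` are Artinian
test algebras. -/
theorem isArtinianTestAlgebra_quot [IsNoetherianRing A] (hloc : IsLocalHom (algebraMap 𝒪 A))
    (hA : Function.Surjective (IsLocalRing.residue A ∘ algebraMap 𝒪 A))
    (I : Ideal A) [IsLocalRing (A ⧸ I)] (hopen : ∃ n, maximalIdeal A ^ n ≤ I) :
    IsArtinianTestAlgebra 𝒪 (A ⧸ I) := by
  haveI := hloc
  haveI : IsLocalHom (Ideal.Quotient.mk I) :=
    IsLocalHom.of_surjective _ Ideal.Quotient.mk_surjective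
  refine ⟨?_, ?_, ?_⟩
  · have : algebraMap 𝒪 (A ⧸ I) = (Ideal.Quotient.mk I).comp (algebraMap 𝒪 A) := rfl
    rw [this]
    exact RingHom.isLocalHom_comp _ _
  · intro y
    obtain ⟨y, rfl⟩ := residue_surjective y
    obtain ⟨y, rfl⟩ := Ideal.Quotient.mk_surjective y
    obtain ⟨a, ha⟩ := hA (residue A y)
    refine ⟨a, ?_⟩
    rw [Function.comp_apply] at ha ⊢
    rw [← sub_eq_zero, ← map_sub, residue_eq_zero_iff] at ha ⊢
    have : algebraMap 𝒪 (A ⧸ I) a - Ideal.Quotient.mk I y =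
        Ideal.Quotient.mk I (algebraMap 𝒪 A a - y) := by
      rw [map_sub]; rfl
    rw [this]
    exact map_nonunit (Ideal.Quotient.mk I) _ ha
  · obtain ⟨n, hn⟩ := hopen
    rw [isArtinianRing_iff_isNilpotent_maximalIdeal]
    refine ⟨n, ?_⟩
    rw [Ideal.zero_eq_bot, eq_bot_iff]
    have hmax : maximalIdeal (A ⧸ I) = (maximalIdeal A).map (Ideal.Quotient.mk I) := by
      refine le_antisymm ?_ ?_
      · intro x hx
        obtain ⟨x, rfl⟩ := Ideal.Quotient.mk_surjective x
        refine Ideal.mem_map_of_mem _ ?_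
        rw [mem_maximalIdeal, mem_nonunits_iff] at hx ⊢
        exact fun h => hx (h.map _)
      · rw [Ideal.map_le_iff_le_comap]
        intro x hx
        exact map_nonunit (Ideal.Quotient.mk I) x hx
    rw [hmax, ← Ideal.map_pow]
    refine (Ideal.map_mono hn).trans ?_
    rw [Ideal.map_quotient_self]

/-- The test quotients `A → A ⧸ 𝔪 ^ k` (`k ≠ 0`) packaged for the fifth field of
`IsDeformationCondition`: a property `Q` of elements of `A` which can be tested on all Artinian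
quotients holds. -/
theorem forall_quot_pow_of_forall_surjective [IsNoetherianRing A]
    (hloc : IsLocalHom (algebraMap 𝒪 A))
    (hA : Function.Surjective (IsLocalRing.residue A ∘ algebraMap 𝒪 A))
    (R : ∀ ⦃B : Type⦄ [CommRing B] [IsLocalRing B], (A →+* B) → Prop)
    (h : ∀ ⦃B : Type⦄ [CommRing B] [IsLocalRing B] [Algebra 𝒪 B], IsArtinianTestAlgebra 𝒪 B →
        ∀ (q : A →ₐ[𝒪] B) (_ : IsLocalHom (q : A →+* B)), Function.Surjective q →
          R (q : A →+* B))
    {k : ℕ} (hk : k ≠ 0) :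
    haveI := isLocalRing_quot_pow (A := A) hk
    R (Ideal.Quotient.mk (maximalIdeal A ^ k)) := by
  haveI := isLocalRing_quot_pow (A := A) hk
  have hT : IsArtinianTestAlgebra 𝒪 (A ⧸ maximalIdeal A ^ k) :=
    isArtinianTestAlgebra_quot hloc hA _ ⟨k, le_rfl⟩
  exact h hT (Ideal.Quotient.mkₐ 𝒪 (maximalIdeal A ^ k))
    (IsLocalHom.of_surjective _ (Ideal.Quotient.mkₐ_surjective 𝒪 _))
    (Ideal.Quotient.mkₐ_surjective 𝒪 _)

end Quot

/-! ### Conditions cut out by the vanishing of a family of elements -/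

section Vanishing

variable {𝒪 : Type} [CommRing 𝒪] [IsLocalRing 𝒪]

/-- **Meta-theorem.** A condition `D` on representations over local rings such that
* `D ρ ↔ ∀ x ∈ X ρ, x = 0` for a family of elements `X ρ ⊆ A`,
* `D (ρ ⊗ B) ↔ ∀ x ∈ X ρ, φ x = 0` for every local `φ : A → B`,
* `D` is invariant under equivalence,
is a deformation condition. -/
theorem isDeformationCondition_of_vanishing
    {D : ∀ ⦃A : Type⦄ [CommRing A] [IsLocalRing A], GaloisRepAdic A → Prop}
    (X : ∀ ⦃A : Type⦄ [CommRing A] [IsLocalRing A], GaloisRepAdic A → Set A)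
    (hX : ∀ ⦃A : Type⦄ [CommRing A] [IsLocalRing A] (ρ : GaloisRepAdic A),
      D ρ ↔ ∀ x ∈ X ρ, x = 0)
    (hbc : ∀ ⦃A B : Type⦄ [CommRing A] [IsLocalRing A] [CommRing B] [IsLocalRing B]
      (φ : A →+* B) (hφ : IsLocalHom φ) (ρ : GaloisRepAdic A),
      D (ρ.baseChangeAlong φ hφ) ↔ ∀ x ∈ X ρ, φ x = 0)
    (hequiv : ∀ ⦃A : Type⦄ [CommRing A] [IsLocalRing A] ⦃ρ ρ' : GaloisRepAdic A⦄,
      ρ.IsEquiv ρ' → D ρ → D ρ') :
    IsDeformationCondition 𝒪 (fun _A _ _ _ ρ => D ρ) where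
  of_isEquiv := fun _ _ _ _ _ _ _ he h => hequiv he h
  baseChangeAlong := fun A B _ _ _ _ _ _ _ _ φ hφ ρ h =>
    (hbc (φ : A →+* B) hφ ρ).2 fun x hx => by rw [(hX ρ).1 h x hx, map_zero]
  of_baseChangeAlong_injective := fun A B _ _ _ _ _ _ _ _ φ hφ hinj ρ h =>
    (hX ρ).2 fun x hx => hinj (by
      have h1 : φ x = 0 := (hbc (φ : A →+* B) hφ ρ).1 h x hx
      rw [map_zero]
      exact h1)
  of_fibreProduct := fun A B _ P _ _ _ _ _ _ _ _ _ _ _ _ _ _ _ _ _ _ pA pB hpA hpB _ hinj _ ρ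
      ha hb =>
    (hX ρ).2 fun x hx => hinj (by
      have h1 : pA x = 0 := (hbc (pA : P →+* A) hpA ρ).1 ha x hx
      have h2 : pB x = 0 := (hbc (pB : P →+* B) hpB ρ).1 hb x hx
      show (pA x, pB x) = (pA 0, pB 0)
      rw [h1, h2, map_zero, map_zero])
  iff_forall_surjective := fun A _ _ _ _ _ hloc hres ρ => by
    refine ⟨fun h B _ _ _ _ q hq _ =>
      (hbc (q : A →+* B) hq ρ).2 fun x hx => by rw [(hX ρ).1 h x hx, map_zero], fun h => ?_⟩
    refine (hX ρ).2 fun x hx => ?_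
    have hmem : ∀ k : ℕ, x ∈ maximalIdeal A ^ k := by
      intro k
      by_cases hk : k = 0
      · subst hk
        rw [pow_zero, Ideal.one_eq_top]
        exact Submodule.mem_top
      · have h1 := forall_quot_pow_of_forall_surjective (𝒪 := 𝒪) hloc hres
          (fun B _ _ q => ∀ x ∈ X ρ, q x = 0)
          (fun B _ _ _ hB q hq hqs => (hbc (q : A →+* B) hq ρ).1 (h hB q hq hqs)) hk x hx
        exact Ideal.Quotient.eq_zero_iff_mem.mp h1
    have h2 : x ∈ ⨅ k : ℕ, maximalIdeal A ^ k := by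
      rw [Ideal.mem_iInf]
      exact hmem
    rw [Ideal.iInf_pow_eq_bot_of_isLocalRing _ (maximalIdeal.isMaximal A).ne_top] at h2
    exact h2

end Vanishing

/-! ### Linear algebra: base change of endomorphisms of a finite free module -/

section LinAlg

open scoped Classical in
/-- the matrix of an endomorphism in the chosen basis -/
noncomputable def mat {P : Type} [CommRing P] {V : Type} [AddCommGroup V] [Module P V]
    [Module.Free P V] [Module.Finite P V] (f : Module.End P V) :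
    Matrix (Module.Free.ChooseBasisIndex P V) (Module.Free.ChooseBasisIndex P V) P :=
  LinearMap.toMatrix (Module.Free.chooseBasis P V) (Module.Free.chooseBasis P V) f

variable {P : Type} [CommRing P] {V : Type} [AddCommGroup V] [Module P V]
  [Module.Free P V] [Module.Finite P V]

open scoped Classical in
theorem eq_one_iff_mat (f : Module.End P V) :
    f = 1 ↔ ∀ i j, mat f i j - (1 : Matrix _ _ P) i j = 0 := by
  rw [← (LinearMap.toMatrix (Module.Free.chooseBasis P V)
    (Module.Free.chooseBasis P V)).injective.eq_iff, LinearMap.toMatrix_one, ← Matrix.ext_iff]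
  simp only [sub_eq_zero]
  rfl

open scoped Classical in
theorem baseChange_eq_one_iff_mat {C : Type} [CommRing C] [Algebra P C] (f : Module.End P V) :
    f.baseChange C = 1 ↔ ∀ i j, algebraMap P C (mat f i j - (1 : Matrix _ _ P) i j) = 0 := by
  rw [← (LinearMap.toMatrix (Algebra.TensorProduct.basis C (Module.Free.chooseBasis P V))
    (Algebra.TensorProduct.basis C (Module.Free.chooseBasis P V))).injective.eq_iff,
    LinearMap.toMatrix_one, LinearMap.toMatrix_baseChange, ← Matrix.ext_iff]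
  refine forall_congr' fun i => forall_congr' fun j => ?_
  rw [map_sub, sub_eq_zero, Matrix.map_apply, Matrix.one_apply, Matrix.one_apply]
  split_ifs <;> simp [mat]

theorem charpoly_eq_iff_coeff (f : Module.End P V) (g : Polynomial P) :
    LinearMap.charpoly f = g ↔ ∀ k, (LinearMap.charpoly f - g).coeff k = 0 := by
  rw [Polynomial.ext_iff]
  simp only [Polynomial.coeff_sub, sub_eq_zero]

theorem charpoly_baseChange_eq_iff_coeff {C : Type} [CommRing C] [Algebra P C]
    (f : Module.End P V) (g : Polynomial P) :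
    LinearMap.charpoly (f.baseChange C) = g.map (algebraMap P C) ↔
      ∀ k, algebraMap P C ((LinearMap.charpoly f - g).coeff k) = 0 := by
  rw [LinearMap.charpoly_baseChange, Polynomial.ext_iff]
  simp only [Polynomial.coeff_sub, Polynomial.coeff_map, map_sub, sub_eq_zero]

end LinAlg

/-! ### Equivalent representations are conjugate -/

section Conj

variable {A : Type} [CommRing A] [IsLocalRing A]

theorem rho_eq_conj {ρ ρ' : GaloisRepAdic A} (e : ρ.Equiv ρ') (σ : GQ) :
    ρ'.ρ σ = e.toLinearEquiv.conj (ρ.ρ σ) := by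
  refine LinearMap.ext fun x => ?_
  rw [LinearEquiv.conj_apply]
  simp only [LinearMap.comp_apply, LinearEquiv.coe_coe]
  rw [e.map_apply, LinearEquiv.apply_symm_apply]

theorem det_rho_eq_of_equiv {ρ ρ' : GaloisRepAdic A} (e : ρ.Equiv ρ') (σ : GQ) :
    LinearMap.det (ρ'.ρ σ) = LinearMap.det (ρ.ρ σ) := by
  rw [rho_eq_conj e, LinearEquiv.conj_apply, LinearMap.comp_assoc, LinearMap.det_conj]

theorem charpoly_rho_eq_of_equiv {ρ ρ' : GaloisRepAdic A} (e : ρ.Equiv ρ') (σ : GQ) :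
    LinearMap.charpoly (ρ'.ρ σ) = LinearMap.charpoly (ρ.ρ σ) := by
  rw [rho_eq_conj e, LinearEquiv.charpoly_conj]

theorem rho_eq_one_of_equiv {ρ ρ' : GaloisRepAdic A} (e : ρ.Equiv ρ') {σ : GQ}
    (h : ρ.ρ σ = 1) : ρ'.ρ σ = 1 := by
  rw [rho_eq_conj e, h]
  refine LinearMap.ext fun x => ?_
  rw [LinearEquiv.conj_apply]
  simp

end Conj

/-! ### The atoms `ρ σ = 1` and `charpoly (ρ σ) = (X - 1) ^ 2` on a set of `σ` -/

section Atoms

variable {𝒪 : Type} [CommRing 𝒪] [IsLocalRing 𝒪]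

/-- `ρ σ = 1` for all `σ` in a fixed set is a deformation condition. -/
theorem isDeformationCondition_trivOn (S : Set GQ) :
    IsDeformationCondition 𝒪 (fun _A _ _ _ ρ => ∀ σ ∈ S, ρ.ρ σ = 1) :=
  isDeformationCondition_of_vanishing (D := fun _A _ _ ρ => ∀ σ ∈ S, ρ.ρ σ = 1)
    (fun _A _ _ ρ => {x | ∃ σ ∈ S, ∃ i j, x = mat (ρ.ρ σ) i j - (1 : Matrix _ _ _) i j})
    (fun A _ _ ρ => by
      constructor
      · rintro h x ⟨σ, hσ, i, j, rfl⟩
        exact (eq_one_iff_mat _).1 (h σ hσ) i j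
      · intro h σ hσ
        exact (eq_one_iff_mat _).2 fun i j => h _ ⟨σ, hσ, i, j, rfl⟩)
    (fun A B _ _ _ _ φ hφ ρ => by
      let _ : Algebra A B := φ.toAlgebra
      constructor
      · rintro h x ⟨σ, hσ, i, j, rfl⟩
        have h1 : (ρ.ρ σ).baseChange B = 1 := h σ hσ
        exact (baseChange_eq_one_iff_mat (C := B) _).1 h1 i j
      · intro h σ hσ
        change (ρ.ρ σ).baseChange B = 1
        exact (baseChange_eq_one_iff_mat (C := B) _).2 fun i j => h _ ⟨σ, hσ, i, j, rfl⟩)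
    (fun A _ _ ρ ρ' ⟨e⟩ h σ hσ => rho_eq_one_of_equiv e (h σ hσ))

/-- `charpoly (ρ σ) = (X - 1) ^ 2` for all `σ` in a fixed set is a deformation condition. -/
theorem isDeformationCondition_unipOn (S : Set GQ) :
    IsDeformationCondition 𝒪
      (fun _A _ _ _ ρ => ∀ σ ∈ S, LinearMap.charpoly (ρ.ρ σ) = (Polynomial.X - 1) ^ 2) :=
  isDeformationCondition_of_vanishing
    (D := fun _A _ _ ρ => ∀ σ ∈ S, LinearMap.charpoly (ρ.ρ σ) = (Polynomial.X - 1) ^ 2)
    (fun _A _ _ ρ => {x | ∃ σ ∈ S, ∃ k,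
      x = (LinearMap.charpoly (ρ.ρ σ) - (Polynomial.X - 1) ^ 2).coeff k})
    (fun A _ _ ρ => by
      constructor
      · rintro h x ⟨σ, hσ, k, rfl⟩
        exact (charpoly_eq_iff_coeff _ _).1 (h σ hσ) k
      · intro h σ hσ
        exact (charpoly_eq_iff_coeff _ _).2 fun k => h _ ⟨σ, hσ, k, rfl⟩)
    (fun A B _ _ _ _ φ hφ ρ => by
      let _ : Algebra A B := φ.toAlgebra
      have hmap : ((Polynomial.X - 1) ^ 2 : Polynomial A).map (algebraMap A B) =
          (Polynomial.X - 1) ^ 2 := by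
        rw [Polynomial.map_pow, Polynomial.map_sub, Polynomial.map_X, Polynomial.map_one]
      constructor
      · rintro h x ⟨σ, hσ, k, rfl⟩
        have h1 : LinearMap.charpoly ((ρ.ρ σ).baseChange B) = (Polynomial.X - 1) ^ 2 := h σ hσ
        rw [← hmap] at h1
        exact (charpoly_baseChange_eq_iff_coeff (C := B) _ _).1 h1 k
      · intro h σ hσ
        change LinearMap.charpoly ((ρ.ρ σ).baseChange B) = (Polynomial.X - 1) ^ 2
        rw [← hmap]
        exact (charpoly_baseChange_eq_iff_coeff (C := B) _ _).2 fun k => h _ ⟨σ, hσ, k, rfl⟩)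
    (fun A _ _ ρ ρ' ⟨e⟩ h σ hσ => by rw [charpoly_rho_eq_of_equiv e, h σ hσ])

/-- the union of the inertia groups at the places of `Qb` above `q` -/
def inertiaSet (q : ℕ) : Set GQ :=
  {σ | ∃ P : ValuationSubring Qb, P.LiesOverPrime q ∧ σ ∈ P.inertiaSubgroupIn ℚ}

/-- **UNR**: `ρ.IsUnramifiedAt q` is a deformation condition. -/
theorem isDeformationCondition_isUnramifiedAt (q : ℕ) :
    IsDeformationCondition 𝒪 (fun _A _ _ _ ρ => ρ.IsUnramifiedAt q) :=
  IsDeformationCondition.congr (isDeformationCondition_trivOn (inertiaSet q)) fun _A _ _ _ _ρ =>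
    ⟨fun h P hP σ hσ => h σ ⟨P, hP, hσ⟩, fun h σ ⟨P, hP, hσ⟩ => h P hP σ hσ⟩

/-- **UNIP**: `ρ.IsUnipotentOnInertiaAt q` is a deformation condition. -/
theorem isDeformationCondition_isUnipotentOnInertiaAt (q : ℕ) :
    IsDeformationCondition 𝒪 (fun _A _ _ _ ρ => ρ.IsUnipotentOnInertiaAt q) :=
  IsDeformationCondition.congr (isDeformationCondition_unipOn (inertiaSet q)) fun _A _ _ _ _ρ =>
    ⟨fun h P hP σ hσ => h σ ⟨P, hP, hσ⟩, fun h σ ⟨P, hP, hσ⟩ => h P hP σ hσ⟩

end Atoms

/-! ### The cyclotomic determinant -/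

section Cyc

variable (p : ℕ) [Fact p.Prime]

/-- existence of the cyclotomic exponent at level `n` -/
theorem exists_cycAct (σ : GQ) (n : ℕ) :
    ∃ a : ℕ, ∀ μ : Qb, μ ^ p ^ n = 1 → σ μ = μ ^ a := by
  have hp : p.Prime := Fact.out
  haveI : NeZero (p ^ n) := ⟨pow_ne_zero n hp.ne_zero⟩
  obtain ⟨ζ, hζ⟩ := HasEnoughRootsOfUnity.exists_primitiveRoot Qb (p ^ n)
  have h1 : (σ ζ) ^ (p ^ n) = 1 := by rw [← map_pow, hζ.pow_eq_one, map_one]
  obtain ⟨a, -, ha⟩ := hζ.eq_pow_of_pow_eq_one h1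
  refine ⟨a, fun μ hμ => ?_⟩
  obtain ⟨i, -, rfl⟩ := hζ.eq_pow_of_pow_eq_one hμ
  rw [map_pow, ← ha, ← pow_mul, ← pow_mul, mul_comm]

/-- uniqueness of the cyclotomic exponent modulo `p ^ n` -/
theorem cycAct_modEq {σ : GQ} {n a a' : ℕ}
    (h : ∀ μ : Qb, μ ^ p ^ n = 1 → σ μ = μ ^ a)
    (h' : ∀ μ : Qb, μ ^ p ^ n = 1 → σ μ = μ ^ a') : a ≡ a' [MOD p ^ n] := by
  have hp : p.Prime := Fact.out
  haveI : NeZero (p ^ n) := ⟨pow_ne_zero n hp.ne_zero⟩
  obtain ⟨ζ, hζ⟩ := HasEnoughRootsOfUnity.exists_primitiveRoot Qb (p ^ n)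
  have h1 : ζ ^ a = ζ ^ a' := by rw [← h ζ hζ.pow_eq_one, ← h' ζ hζ.pow_eq_one]
  have hk : p ^ n = orderOf ζ := hζ.eq_orderOf
  have h2 : ζ ^ (a % (p ^ n)) = ζ ^ (a' % (p ^ n)) := by
    rw [hk, pow_mod_orderOf, pow_mod_orderOf, h1]
  have hpos : 0 < p ^ n := Nat.pos_of_ne_zero (NeZero.ne _)
  exact hζ.pow_inj (Nat.mod_lt _ hpos) (Nat.mod_lt _ hpos) h2

omit [Fact p.Prime] in
/-- restriction of the cyclotomic exponent to a lower level -/
theorem cycAct_of_le {σ : GQ} {m n a : ℕ} (hmn : m ≤ n)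
    (h : ∀ μ : Qb, μ ^ p ^ n = 1 → σ μ = μ ^ a) :
    ∀ μ : Qb, μ ^ p ^ m = 1 → σ μ = μ ^ a := by
  intro μ hμ
  refine h μ ?_
  obtain ⟨d, rfl⟩ := Nat.exists_eq_add_of_le hmn
  rw [pow_add, pow_mul, hμ, one_pow]

end Cyc

section DetRing

/-- `m ∣ a - b` in `ℤ` gives `a - b ∈ (m)` in any ring. -/
theorem natCast_sub_mem_span_of_modEq {T : Type} [CommRing T] {m a b : ℕ}
    (h : a ≡ b [MOD m]) : (a : T) - (b : T) ∈ Ideal.span {((m : ℕ) : T)} := by
  obtain ⟨k, hk⟩ := (Nat.modEq_iff_dvd).mp h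
  have h7 : (a : T) - (b : T) = (-(k : T)) * ((m : ℕ) : T) := by
    have := congrArg (fun z : ℤ => (z : T)) hk
    simp only [Int.cast_sub, Int.cast_natCast, Int.cast_mul] at this
    rw [neg_mul, mul_comm, ← this]
    ring
  rw [h7]
  exact Ideal.mul_mem_left _ _ (Ideal.subset_span rfl)

/-- a ring hom reflects membership of the maximal ideal (no locality needed) -/
theorem mem_maximalIdeal_of_map_mem {A B : Type} [CommRing A] [IsLocalRing A] [CommRing B]
    [IsLocalRing B] (φ : A →+* B) {a : A} (h : φ a ∈ maximalIdeal B) : a ∈ maximalIdeal A := by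
  rw [mem_maximalIdeal, mem_nonunits_iff] at h ⊢
  exact fun hu => h (hu.map φ)

/-- in an Artinian local ring with `p ∈ 𝔪`, `p` is nilpotent -/
theorem exists_natCast_pow_eq_zero {A : Type} [CommRing A] [IsLocalRing A] [IsArtinianRing A]
    {p : ℕ} (hp : (p : A) ∈ maximalIdeal A) : ∃ N : ℕ, ((p ^ N : ℕ) : A) = 0 := by
  obtain ⟨N, hN⟩ := IsArtinianRing.isNilpotent_jacobson_bot (R := A)
  rw [IsLocalRing.jacobson_eq_maximalIdeal ⊥ bot_ne_top] at hN
  refine ⟨N, ?_⟩
  have h1 : (p : A) ^ N ∈ maximalIdeal A ^ N := Ideal.pow_mem_pow hp N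
  rw [hN, Ideal.zero_eq_bot, Ideal.mem_bot] at h1
  rw [Nat.cast_pow, h1]

variable (p : ℕ) [Fact p.Prime]

omit [Fact p.Prime] in
/-- Over a ring with `p ^ N = 0` the cyclotomic-determinant condition pins down the value. -/
theorem eq_natCast_of_cyc {B : Type} [CommRing B] {N : ℕ} (hN : ((p ^ N : ℕ) : B) = 0)
    {σ : GQ} {d : B}
    (h : ∀ (n a : ℕ), (∀ μ : Qb, μ ^ p ^ n = 1 → σ μ = μ ^ a) →
      d - (a : B) ∈ Ideal.span {((p ^ n : ℕ) : B)})
    {M a' : ℕ} (hM : N ≤ M) (ha' : ∀ μ : Qb, μ ^ p ^ M = 1 → σ μ = μ ^ a') : d = (a' : B) := by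
  have h1 := h M a' ha'
  have h2 : ((p ^ M : ℕ) : B) = 0 := by
    obtain ⟨e, rfl⟩ := Nat.exists_eq_add_of_le hM
    rw [pow_add, Nat.cast_mul, hN, zero_mul]
  rw [h2, Ideal.span_singleton_eq_bot.mpr rfl, Ideal.mem_bot, sub_eq_zero] at h1
  exact h1

/-- Conversely the value at a high level gives the congruences at all lower levels. -/
theorem sub_natCast_mem_span_of_eq {T : Type} [CommRing T] {σ : GQ} {d : T} {M a' : ℕ}
    (ha' : ∀ μ : Qb, μ ^ p ^ M = 1 → σ μ = μ ^ a') (hd : d = (a' : T)) {n a : ℕ} (hn : n ≤ M)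
    (ha : ∀ μ : Qb, μ ^ p ^ n = 1 → σ μ = μ ^ a) :
    d - (a : T) ∈ Ideal.span {((p ^ n : ℕ) : T)} := by
  rw [hd]
  exact natCast_sub_mem_span_of_modEq (cycAct_modEq p (cycAct_of_le p hn ha') ha)

end DetRing

section Krull

/-- Every ideal of a Noetherian local ring is closed in the `𝔪`-adic topology. -/
theorem mem_of_forall_mem_sup_pow {T : Type} [CommRing T] [IsLocalRing T] [IsNoetherianRing T]
    (J : Ideal T) (x : T) (h : ∀ k : ℕ, x ∈ J ⊔ maximalIdeal T ^ k) : x ∈ J := by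
  have h0 : (Ideal.Quotient.mk J x : T ⧸ J) ∈
      (⨅ k : ℕ, (maximalIdeal T ^ k) • (⊤ : Submodule T (T ⧸ J))) := by
    rw [Submodule.mem_iInf]
    intro k
    obtain ⟨y, hy, z, hz, hyz⟩ := Submodule.mem_sup.mp (h k)
    have e : (Ideal.Quotient.mk J x : T ⧸ J) = z • (Ideal.Quotient.mk J (1 : T) : T ⧸ J) := by
      rw [← hyz, map_add, Ideal.Quotient.eq_zero_iff_mem.mpr hy, zero_add]
      show _ = Ideal.Quotient.mk J (z • (1 : T))
      rw [smul_eq_mul, mul_one]
    rw [e]
    exact Submodule.smul_mem_smul hz Submodule.mem_top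
  rw [Ideal.iInf_pow_smul_eq_bot_of_isLocalRing (maximalIdeal T)
    (maximalIdeal.isMaximal T).ne_top, Submodule.mem_bot] at h0
  exact Ideal.Quotient.eq_zero_iff_mem.mp h0

end Krull

section Det

variable {𝒪 : Type} [CommRing 𝒪] [IsLocalRing 𝒪]

/-- the cyclotomic-determinant condition of a base change, at ring level -/
theorem detIsCyclotomic_baseChangeAlong_iff {A B : Type} [CommRing A] [IsLocalRing A]
    [CommRing B] [IsLocalRing B] (φ : A →+* B) (hφ : IsLocalHom φ) (ρ : GaloisRepAdic A)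
    (p : ℕ) :
    (ρ.baseChangeAlong φ hφ).DetIsCyclotomic p ↔
      (p : B) ∈ maximalIdeal B ∧ ∀ (n : ℕ) (σ : GQ) (a : ℕ),
        (∀ μ : Qb, μ ^ p ^ n = 1 → σ μ = μ ^ a) →
          φ (LinearMap.det (ρ.ρ σ)) - (a : B) ∈ Ideal.span {((p ^ n : ℕ) : B)} := by
  let _ : Algebra A B := φ.toAlgebra
  have hdet : ∀ σ : GQ,
      LinearMap.det ((ρ.baseChangeAlong φ hφ).ρ σ) = φ (LinearMap.det (ρ.ρ σ)) := by
    intro σ
    change LinearMap.det ((ρ.ρ σ).baseChange B) = _
    rw [LinearMap.det_baseChange]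
    rfl
  unfold GaloisRepAdic.DetIsCyclotomic
  simp only [hdet]

variable (p : ℕ) [Fact p.Prime]

/-- descent of the cyclotomic-determinant condition along a jointly injective family of (two)
ring homs out of an Artinian local ring -/
theorem detIsCyclotomic_of_jointly_injective {P A B : Type} [CommRing P] [IsLocalRing P]
    [IsArtinianRing P] [CommRing A] [IsLocalRing A] [CommRing B] [IsLocalRing B]
    (f : P →+* A) (hf : IsLocalHom f) (g : P →+* B) (hg : IsLocalHom g)
    (hinj : ∀ x : P, f x = 0 → g x = 0 → x = 0) {ρ : GaloisRepAdic P}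
    (ha : (ρ.baseChangeAlong f hf).DetIsCyclotomic p)
    (hb : (ρ.baseChangeAlong g hg).DetIsCyclotomic p) : ρ.DetIsCyclotomic p := by
  rw [detIsCyclotomic_baseChangeAlong_iff] at ha hb
  obtain ⟨hpA, hA'⟩ := ha
  obtain ⟨-, hB'⟩ := hb
  have hpP : (p : P) ∈ maximalIdeal P :=
    mem_maximalIdeal_of_map_mem f (by rw [map_natCast]; exact hpA)
  obtain ⟨N, hN⟩ := exists_natCast_pow_eq_zero hpP
  refine ⟨hpP, fun n σ a hcyc => ?_⟩
  obtain ⟨a', ha'⟩ := exists_cycAct p σ (max n N)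
  have hNA : ((p ^ N : ℕ) : A) = 0 := by rw [← map_natCast f, hN, map_zero]
  have hNB : ((p ^ N : ℕ) : B) = 0 := by rw [← map_natCast g, hN, map_zero]
  have hdA : f (LinearMap.det (ρ.ρ σ)) = (a' : A) :=
    eq_natCast_of_cyc p hNA (fun n a => hA' n σ a) (le_max_right _ _) ha'
  have hdB : g (LinearMap.det (ρ.ρ σ)) = (a' : B) :=
    eq_natCast_of_cyc p hNB (fun n a => hB' n σ a) (le_max_right _ _) ha'
  have hd : LinearMap.det (ρ.ρ σ) = (a' : P) := by
    rw [← sub_eq_zero]
    refine hinj _ ?_ ?_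
    · rw [map_sub, hdA, map_natCast, sub_self]
    · rw [map_sub, hdB, map_natCast, sub_self]
  exact sub_natCast_mem_span_of_eq p ha' hd (le_max_left _ _) hcyc

/-- **DET**: `ρ.DetIsCyclotomic p` is a deformation condition. -/
theorem isDeformationCondition_detIsCyclotomic :
    IsDeformationCondition 𝒪 (fun _A _ _ _ ρ => ρ.DetIsCyclotomic p) where
  of_isEquiv := fun A _ _ _ _ ρ ρ' ⟨e⟩ h =>
    ⟨h.1, fun n σ a ha => by rw [det_rho_eq_of_equiv e]; exact h.2 n σ a ha⟩
  baseChangeAlong := fun A B _ _ _ _ _ _ _ _ φ hφ ρ h =>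
    Fermat.Agent.GP.Tan.detIsCyclotomic_baseChangeAlong (φ : A →+* B) hφ h
  of_baseChangeAlong_injective := fun A B _ _ _ _ _ _ hA _ φ hφ hinj ρ h => by
    haveI := hA.isArtinian
    refine detIsCyclotomic_of_jointly_injective p (φ : A →+* B) hφ (φ : A →+* B) hφ
      (fun x hx _ => hinj ?_) h h
    rw [map_zero]
    exact hx
  of_fibreProduct := fun A B _ P _ _ _ _ _ _ _ _ _ _ _ _ _ _ _ hP _ _ pA pB hpA hpB _ hinj _ ρ
      ha hb => by
    haveI := hP.isArtinian
    refine detIsCyclotomic_of_jointly_injective p (pA : P →+* A) hpA (pB : P →+* B) hpB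
      (fun x hx hy => hinj ?_) ha hb
    show (pA x, pB x) = (pA 0, pB 0)
    have hx' : pA x = 0 := hx
    have hy' : pB x = 0 := hy
    rw [hx', hy', map_zero, map_zero]
  iff_forall_surjective := fun A _ _ _ _ _ hloc hres ρ => by
    refine ⟨fun h B _ _ _ _ q hq _ =>
      Fermat.Agent.GP.Tan.detIsCyclotomic_baseChangeAlong (q : A →+* B) hq h, fun h => ?_⟩
    have key : ∀ {k : ℕ} (hk : k ≠ 0),
        haveI := isLocalRing_quot_pow (A := A) hk
        ((p : A ⧸ maximalIdeal A ^ k) ∈ maximalIdeal (A ⧸ maximalIdeal A ^ k) ∧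
          ∀ (n : ℕ) (σ : GQ) (a : ℕ), (∀ μ : Qb, μ ^ p ^ n = 1 → σ μ = μ ^ a) →
            Ideal.Quotient.mk (maximalIdeal A ^ k) (LinearMap.det (ρ.ρ σ)) -
              (a : A ⧸ maximalIdeal A ^ k) ∈
                Ideal.span {((p ^ n : ℕ) : A ⧸ maximalIdeal A ^ k)}) := fun {k} hk =>
      forall_quot_pow_of_forall_surjective (𝒪 := 𝒪) hloc hres
        (fun B _ _ q => (p : B) ∈ maximalIdeal B ∧ ∀ (n : ℕ) (σ : GQ) (a : ℕ),
          (∀ μ : Qb, μ ^ p ^ n = 1 → σ μ = μ ^ a) →
            q (LinearMap.det (ρ.ρ σ)) - (a : B) ∈ Ideal.span {((p ^ n : ℕ) : B)})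
        (fun B _ _ _ hB q hq hqs =>
          (detIsCyclotomic_baseChangeAlong_iff (q : A →+* B) hq ρ p).1 (h hB q hq hqs)) hk
    refine ⟨?_, fun n σ a hcyc => ?_⟩
    · haveI := isLocalRing_quot_pow (A := A) one_ne_zero
      refine mem_maximalIdeal_of_map_mem (Ideal.Quotient.mk (maximalIdeal A ^ 1)) ?_
      rw [map_natCast]
      exact (key one_ne_zero).1
    · refine mem_of_forall_mem_sup_pow _ _ fun k => ?_
      by_cases hk : k = 0
      · subst hk
        rw [pow_zero, Ideal.one_eq_top, sup_top_eq]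
        exact Submodule.mem_top
      · have h1 := (key hk).2 n σ a hcyc
        obtain ⟨c, hc⟩ := Ideal.mem_span_singleton'.1 h1
        obtain ⟨c', rfl⟩ := Ideal.Quotient.mk_surjective c
        have h2 : LinearMap.det (ρ.ρ σ) - (a : A) - c' * ((p ^ n : ℕ) : A) ∈
            maximalIdeal A ^ k := by
          rw [← Ideal.Quotient.eq_zero_iff_mem, map_sub, map_sub, map_mul, map_natCast,
            map_natCast, hc, sub_self]
        have h3 : LinearMap.det (ρ.ρ σ) - (a : A) = c' * ((p ^ n : ℕ) : A) +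
            (LinearMap.det (ρ.ρ σ) - (a : A) - c' * ((p ^ n : ℕ) : A)) := by ring
        rw [h3]
        exact Submodule.add_mem_sup (Ideal.mul_mem_left _ _ (Ideal.subset_span rfl)) h2

end Det

/-! ### Assembly: the S56-shaped conditions -/

section Assembly

variable {𝒪 : Type} [CommRing 𝒪] [IsLocalRing 𝒪] (p : ℕ) [Fact p.Prime]

/-- "unramified outside `T`" is a deformation condition. -/
theorem isDeformationCondition_unramifiedOutside (T : Finset ℕ) :
    IsDeformationCondition 𝒪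
      (fun _A _ _ _ ρ => ∀ q : ℕ, q.Prime → q ∉ T → ρ.IsUnramifiedAt q) :=
  IsDeformationCondition.forall (ι := ℕ)
    (𝒟 := fun q _A _ _ _ ρ => q.Prime → q ∉ T → ρ.IsUnramifiedAt q) fun q =>
      IsDeformationCondition.imp q.Prime (𝒟 := fun _A _ _ _ ρ => q ∉ T → ρ.IsUnramifiedAt q)
        (IsDeformationCondition.imp (q ∉ T) (isDeformationCondition_isUnramifiedAt q))

/-- "unipotent on inertia at the primes `≠ p` of `Smin`" is a deformation condition. -/
theorem isDeformationCondition_unipotentAt (Smin : Finset ℕ) :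
    IsDeformationCondition 𝒪
      (fun _A _ _ _ ρ => ∀ q ∈ Smin, q.Prime → q ≠ p → ρ.IsUnipotentOnInertiaAt q) :=
  IsDeformationCondition.forall_mem Smin
    (𝒟 := fun q _A _ _ _ ρ => q.Prime → q ≠ p → ρ.IsUnipotentOnInertiaAt q) fun q _ =>
      IsDeformationCondition.imp q.Prime
        (𝒟 := fun _A _ _ _ ρ => q ≠ p → ρ.IsUnipotentOnInertiaAt q)
        (IsDeformationCondition.imp (q ≠ p) (isDeformationCondition_isUnipotentOnInertiaAt q))

/-- `flatCondition 𝒪 p T` is a deformation condition as soon as `IsFlatAt p` is one. -/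
theorem isDeformationCondition_flatCondition
    (hfl : IsDeformationCondition 𝒪 (fun _A _ _ _ ρ => ρ.IsFlatAt p)) (T : Finset ℕ) :
    IsDeformationCondition 𝒪 (GaloisRep.flatCondition 𝒪 p T) :=
  IsDeformationCondition.and (isDeformationCondition_detIsCyclotomic p)
    (IsDeformationCondition.and hfl (isDeformationCondition_unramifiedOutside T))

/-- `strictOrdinaryCondition 𝒪 p T` is a deformation condition as soon as `IsStrictOrdinaryAt p`
is one. -/
theorem isDeformationCondition_strictOrdinaryCondition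
    (hso : IsDeformationCondition 𝒪 (fun _A _ _ _ ρ => ρ.IsStrictOrdinaryAt p)) (T : Finset ℕ) :
    IsDeformationCondition 𝒪 (GaloisRep.strictOrdinaryCondition 𝒪 p T) :=
  IsDeformationCondition.and (isDeformationCondition_detIsCyclotomic p)
    (IsDeformationCondition.and hso (isDeformationCondition_unramifiedOutside T))

/-- **𝒟FL** (the S56 shape, any `T`, `Smin`), modulo the flat atom. -/
theorem isDeformationCondition_FL_of_flat
    (hfl : IsDeformationCondition 𝒪 (fun _A _ _ _ ρ => ρ.IsFlatAt p)) (T Smin : Finset ℕ) :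
    IsDeformationCondition 𝒪 (fun _A _ _ _ ρ => GaloisRep.flatCondition 𝒪 p T ρ ∧
      ∀ q ∈ Smin, q.Prime → q ≠ p → ρ.IsUnipotentOnInertiaAt q) :=
  IsDeformationCondition.and (isDeformationCondition_flatCondition p hfl T)
    (isDeformationCondition_unipotentAt p Smin)

/-- **𝒟SO** (the S56 shape, any `T`, `Smin`), modulo the strict-ordinary atom. -/
theorem isDeformationCondition_SO_of_strictOrdinary
    (hso : IsDeformationCondition 𝒪 (fun _A _ _ _ ρ => ρ.IsStrictOrdinaryAt p))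
    (T Smin : Finset ℕ) :
    IsDeformationCondition 𝒪 (fun _A _ _ _ ρ => GaloisRep.strictOrdinaryCondition 𝒪 p T ρ ∧
      ∀ q ∈ Smin, q.Prime → q ≠ p → ρ.IsUnipotentOnInertiaAt q) :=
  IsDeformationCondition.and (isDeformationCondition_strictOrdinaryCondition p hso T)
    (isDeformationCondition_unipotentAt p Smin)

/-- the frozen `minimalFlatCondition 𝒪 p S` -/
theorem isDeformationCondition_minimalFlatCondition
    (hfl : IsDeformationCondition 𝒪 (fun _A _ _ _ ρ => ρ.IsFlatAt p)) (S : Finset ℕ) :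
    IsDeformationCondition 𝒪 (GaloisRep.minimalFlatCondition 𝒪 p S) :=
  isDeformationCondition_FL_of_flat p hfl S S

/-- the frozen `minimalStrictOrdinaryCondition 𝒪 p S` -/
theorem isDeformationCondition_minimalStrictOrdinaryCondition
    (hso : IsDeformationCondition 𝒪 (fun _A _ _ _ ρ => ρ.IsStrictOrdinaryAt p)) (S : Finset ℕ) :
    IsDeformationCondition 𝒪 (GaloisRep.minimalStrictOrdinaryCondition 𝒪 p S) :=
  isDeformationCondition_SO_of_strictOrdinary p hso S S

/-- `strictOrdinaryCondition 𝒪 p T` from the combined atom `DET ∧ IsStrictOrdinaryAt p`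
(helper93's `CondSO` binder shape). -/
theorem isDeformationCondition_strictOrdinaryCondition_of_det_and
    (hdso : IsDeformationCondition 𝒪
      (fun _A _ _ _ ρ => ρ.DetIsCyclotomic p ∧ ρ.IsStrictOrdinaryAt p)) (T : Finset ℕ) :
    IsDeformationCondition 𝒪 (GaloisRep.strictOrdinaryCondition 𝒪 p T) :=
  IsDeformationCondition.congr
    (IsDeformationCondition.and hdso (isDeformationCondition_unramifiedOutside T))
    fun _A _ _ _ _ρ => ⟨fun h => ⟨h.1.1, h.1.2, h.2⟩, fun h => ⟨⟨h.1, h.2.1⟩, h.2.2⟩⟩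

/-- **𝒟SO** from the combined atom `DET ∧ IsStrictOrdinaryAt p`. -/
theorem isDeformationCondition_SO_of_det_and
    (hdso : IsDeformationCondition 𝒪
      (fun _A _ _ _ ρ => ρ.DetIsCyclotomic p ∧ ρ.IsStrictOrdinaryAt p)) (T Smin : Finset ℕ) :
    IsDeformationCondition 𝒪 (fun _A _ _ _ ρ => GaloisRep.strictOrdinaryCondition 𝒪 p T ρ ∧
      ∀ q ∈ Smin, q.Prime → q ≠ p → ρ.IsUnipotentOnInertiaAt q) :=
  IsDeformationCondition.and (isDeformationCondition_strictOrdinaryCondition_of_det_and p hdso T)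
    (isDeformationCondition_unipotentAt p Smin)

/-- the frozen `minimalStrictOrdinaryCondition 𝒪 p S` from the combined atom. -/
theorem isDeformationCondition_minimalStrictOrdinaryCondition_of_det_and
    (hdso : IsDeformationCondition 𝒪
      (fun _A _ _ _ ρ => ρ.DetIsCyclotomic p ∧ ρ.IsStrictOrdinaryAt p)) (S : Finset ℕ) :
    IsDeformationCondition 𝒪 (GaloisRep.minimalStrictOrdinaryCondition 𝒪 p S) :=
  isDeformationCondition_SO_of_det_and p hdso S S

end Assembly

end Fermat.Agent.GB.Def.Cond.Atom
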