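/-
GATE-B / B2-COND, target (3) for the flat condition (helper14): the deformation ring `R_{𝒟FL}`
EXISTS for the S56-shaped flat condition at every `T`, `Smin`, as soon as `ρ̄` is absolutely
irreducible, of type `𝒟FL`, and a Selmer bound (any `r`) is available:

  `S53.result` (frozen S53, on main) + `isDeformationCondition_FL` + `TanFin.tangentFinite_of_selmerBound`.

(Twin of helper93's `GB/Def/CondPlug.exists_deformationRingData_FL`, which is the canonical name;
the theorem here is called `nonempty_deformationRingData_FL` to keep names unique.)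
-/
import Fermat.Agent.GB.Def.Cond.FL
import Fermat.Agent.GB.Def.Cond.TanFin
import Fermat.Agent.S53

set_option autoImplicit false
set_option linter.unusedSectionVars false

open IsLocalRing GaloisRep

namespace Fermat.Agent.GB.Def.Cond

variable (𝒪 : Type) [CommRing 𝒪] [IsDomain 𝒪] [IsDiscreteValuationRing 𝒪]
  [IsAdicComplete (maximalIdeal 𝒪) 𝒪] [Finite (ResidueField 𝒪)]
  (p : ℕ) [Fact p.Prime]

/-- the deformation ring of a condition which does not look at the `𝒪`-algebra structure exists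
under: `𝒟` a deformation condition, `ρ̄` absolutely irreducible of type `𝒟`, a Selmer bound. -/
theorem exists_deformationRingData_of_selmerBound
    (ρbar : ResidualGaloisRep (ResidueField 𝒪))
    (b : Module.Basis (Fin 2) (ResidueField 𝒪) ρbar.V)
    (𝒟 : ∀ ⦃A : Type⦄ [CommRing A] [IsLocalRing A] [Algebra 𝒪 A], GaloisRepAdic A → Prop)
    (h𝒟inst : ∀ (i₁ i₂ : Algebra 𝒪 (DualNumber (ResidueField 𝒪)))
      (ρ : GaloisRepAdic (DualNumber (ResidueField 𝒪))),
      @𝒟 (DualNumber (ResidueField 𝒪)) _ _ i₁ ρ → @𝒟 (DualNumber (ResidueField 𝒪)) _ _ i₂ ρ)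
    (habs : ρbar.IsAbsolutelyIrreducible) (h𝒟 : IsDeformationCondition 𝒪 𝒟)
    (hbar : 𝒟 (GaloisRepAdic.ofResidualGaloisRep ρbar))
    {r : ℕ} (hSel : Fermat.Agent.GP.Tan.TanTop.SelmerBound 𝒪 ρbar b 𝒟 r) :
    Nonempty (DeformationRingData 𝒪 ρbar 𝒟) :=
  Fermat.Agent.S53.result 𝒪 ρbar 𝒟 habs h𝒟 hbar
    (TanFin.tangentFinite_of_selmerBound 𝒪 ρbar b 𝒟 h𝒟inst hSel)

/-- **`R_{𝒟FL}` exists** (S56-shaped flat condition, any `T`, `Smin`). -/
theorem nonempty_deformationRingData_FL (T Smin : Finset ℕ)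
    (ρbar : ResidualGaloisRep (ResidueField 𝒪))
    (b : Module.Basis (Fin 2) (ResidueField 𝒪) ρbar.V)
    (habs : ρbar.IsAbsolutelyIrreducible)
    (hbar : GaloisRep.flatCondition 𝒪 p T (GaloisRepAdic.ofResidualGaloisRep ρbar) ∧
      ∀ q ∈ Smin, q.Prime → q ≠ p →
        (GaloisRepAdic.ofResidualGaloisRep ρbar).IsUnipotentOnInertiaAt q)
    {r : ℕ} (hSel : Fermat.Agent.GP.Tan.TanTop.SelmerBound 𝒪 ρbar b
      (fun _A _ _ _ ρ => GaloisRep.flatCondition 𝒪 p T ρ ∧
        ∀ q ∈ Smin, q.Prime → q ≠ p → ρ.IsUnipotentOnInertiaAt q) r) :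
    Nonempty (DeformationRingData 𝒪 ρbar (fun _A _ _ _ ρ => GaloisRep.flatCondition 𝒪 p T ρ ∧
      ∀ q ∈ Smin, q.Prime → q ≠ p → ρ.IsUnipotentOnInertiaAt q)) :=
  exists_deformationRingData_of_selmerBound 𝒪 ρbar b _ (fun _ _ _ h => h) habs
    (isDeformationCondition_FL 𝒪 p T Smin) hbar hSel

end Fermat.Agent.GB.Def.Cond
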