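/-
GATE-B / B2-COND, strict-ordinary side (helper14): thin layer over helper93's
`GB/Def/CondStrictPkg` (`isDeformationCondition_detSO`, `isDeformationCondition_SO` — the packaged
atom `DET ∧ IsStrictOrdinaryAt p` and the S56-shaped `𝒟SO p T Smin`, `p` odd): the frozen
`strictOrdinaryCondition 𝒪 p T` and `minimalStrictOrdinaryCondition 𝒪 p S` are deformation
conditions.

(An earlier revision of this file carried its own twin of the packaging under the same name
`isDeformationCondition_SO`; removed in favour of helper93's to keep the name unique.)
-/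
import Fermat.Agent.GB.Def.Cond.Atom
import Fermat.Agent.GB.Def.CondStrictPkg

set_option autoImplicit false
set_option linter.unusedSectionVars false

open IsLocalRing GaloisRep

namespace Fermat.Agent.GB.Def.Cond

variable (𝒪 : Type) [CommRing 𝒪] [IsLocalRing 𝒪] (p : ℕ) [Fact p.Prime]

/-- the frozen `strictOrdinaryCondition 𝒪 p T` is a deformation condition (`p` odd) -/
theorem isDeformationCondition_strictOrdinaryCondition_closed (hp2 : p ≠ 2) (T : Finset ℕ) :
    IsDeformationCondition 𝒪 (GaloisRep.strictOrdinaryCondition 𝒪 p T) :=
  Atom.isDeformationCondition_strictOrdinaryCondition_of_det_and p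
    (isDeformationCondition_detSO 𝒪 p hp2) T

/-- the frozen `minimalStrictOrdinaryCondition 𝒪 p S` is a deformation condition (`p` odd) -/
theorem isDeformationCondition_minimalStrictOrdinaryCondition_closed (hp2 : p ≠ 2)
    (S : Finset ℕ) :
    IsDeformationCondition 𝒪 (GaloisRep.minimalStrictOrdinaryCondition 𝒪 p S) :=
  isDeformationCondition_SO 𝒪 p hp2 S S

end Fermat.Agent.GB.Def.Cond
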