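/-
GATE-B / B2-COND, target (3) for the strict-ordinary condition (helper14): the deformation ring
`R_{𝒟SO}` EXISTS for the S56-shaped strict-ordinary condition at every `T`, `Smin` (`p` odd), as soon
as `ρ̄` is absolutely irreducible, of type `𝒟SO`, and a Selmer bound (any `r`) is available:

  `S53.result` (frozen S53, on main) + `isDeformationCondition_SO` + `TanFin.tangentFinite_of_selmerBound`.

(Twin of helper93's `GB/Def/CondPlug.exists_deformationRingData_SO`, which is the canonical name;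
the theorem here is called `nonempty_deformationRingData_SO` to keep names unique.)
-/
import Fermat.Agent.GB.Def.Cond.SO
import Fermat.Agent.GB.Def.Cond.RingFL

set_option autoImplicit false
set_option linter.unusedSectionVars false

open IsLocalRing GaloisRep

namespace Fermat.Agent.GB.Def.Cond

variable (𝒪 : Type) [CommRing 𝒪] [IsDomain 𝒪] [IsDiscreteValuationRing 𝒪]
  [IsAdicComplete (maximalIdeal 𝒪) 𝒪] [Finite (ResidueField 𝒪)]
  (p : ℕ) [Fact p.Prime]

/-- **`R_{𝒟SO}` exists** (S56-shaped strict-ordinary condition, any `T`, `Smin`, `p` odd). -/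
theorem nonempty_deformationRingData_SO (hp2 : p ≠ 2) (T Smin : Finset ℕ)
    (ρbar : ResidualGaloisRep (ResidueField 𝒪))
    (b : Module.Basis (Fin 2) (ResidueField 𝒪) ρbar.V)
    (habs : ρbar.IsAbsolutelyIrreducible)
    (hbar : GaloisRep.strictOrdinaryCondition 𝒪 p T (GaloisRepAdic.ofResidualGaloisRep ρbar) ∧
      ∀ q ∈ Smin, q.Prime → q ≠ p →
        (GaloisRepAdic.ofResidualGaloisRep ρbar).IsUnipotentOnInertiaAt q)
    {r : ℕ} (hSel : Fermat.Agent.GP.Tan.TanTop.SelmerBound 𝒪 ρbar b
      (fun _A _ _ _ ρ => GaloisRep.strictOrdinaryCondition 𝒪 p T ρ ∧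
        ∀ q ∈ Smin, q.Prime → q ≠ p → ρ.IsUnipotentOnInertiaAt q) r) :
    Nonempty (DeformationRingData 𝒪 ρbar
      (fun _A _ _ _ ρ => GaloisRep.strictOrdinaryCondition 𝒪 p T ρ ∧
        ∀ q ∈ Smin, q.Prime → q ≠ p → ρ.IsUnipotentOnInertiaAt q)) :=
  exists_deformationRingData_of_selmerBound 𝒪 ρbar b _ (fun _ _ _ h => h) habs
    (isDeformationCondition_SO 𝒪 p hp2 T Smin) hbar hSel

end Fermat.Agent.GB.Def.Cond
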